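import Mathlib
import Fermat.Agent.S16.H75.Gamma0Hecke
import Fermat.Agent.S41.H16.Red

/-!
# Program A (S29 / S42): `𝔽_p`-coordinates of a `k`-valued homomorphism and transfer of eigenvectors

`G` a group, `k` a field of characteristic `p` (an `𝔽_p = ZMod p`-algebra), `Hp` an `𝔽_p`-subspace
of `Hom(G, 𝔽_p)` cut out by vanishing on a set `S ⊆ G` (e.g. parabolic and finite-order elements).

* `coordMap Hp : k ⊗[𝔽_p] Hp →ₗ[k] Hom(G, k)`, `c ⊗ χ ↦ c • (cast ∘ χ)`; it is injective
  (`coordMap_injective`) and, for finitely generated `G`, its image contains every `ψ : G → k`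
  vanishing on `S` (`exists_coordMap_eq`).
* `exists_tensor_eigenvector_aux`, `exists_tensor_eigenvector`: for an injective `𝔽_p`-linear
  `AJ : Hp → J` and a nonzero `ψ : G → k` vanishing on `S` there is ONE nonzero vector
  `v ∈ k ⊗[𝔽_p] J` such that for every operator `T` on `J` intertwined by `AJ` with a Hecke
  operator and every eigen-relation `T_ℓ ψ = a • ψ` one has `(T ⊗ k) v = a • v`.
-/

set_option autoImplicit false

open scoped TensorProduct
open CongruenceSubgroup
open Fermat.Agent.S16.H75 (heckeHom)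

namespace Fermat.Agent.S29.H16

section Abstract

variable {p : ℕ} [Fact p.Prime] (k : Type*) [Field k] [Algebra (ZMod p) k] {G : Type*} [Group G]

/-- The cast of an `𝔽_p`-valued homomorphism to a field `k` of characteristic `p`. -/
def castHom (χ : Additive G →+ ZMod p) : Additive G →+ k :=
  (algebraMap (ZMod p) k).toAddMonoidHom.comp χ

@[simp] theorem castHom_apply (χ : Additive G →+ ZMod p) (γ : Additive G) :
    castHom k χ γ = algebraMap (ZMod p) k (χ γ) := rfl

/-- The cast as an `𝔽_p`-linear map. -/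
noncomputable def castLin : (Additive G →+ ZMod p) →ₗ[ZMod p] (Additive G →+ k) :=
  (AddMonoidHom.compHom (algebraMap (ZMod p) k).toAddMonoidHom :
    (Additive G →+ ZMod p) →+ (Additive G →+ k)).toZModLinearMap p

theorem castLin_apply (χ : Additive G →+ ZMod p) : castLin (p := p) k χ = castHom k χ := rfl

theorem isScalarTower_hom : IsScalarTower (ZMod p) k (Additive G →+ k) :=
  ⟨fun c a ψ => AddMonoidHom.ext fun γ => by
    show (c • a) • ψ γ = c • (a • ψ γ)
    exact smul_assoc c a (ψ γ)⟩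

attribute [local instance] isScalarTower_hom

variable (Hp : Submodule (ZMod p) (Additive G →+ ZMod p))

/-- The coordinate map `k ⊗[𝔽_p] Hp → Hom(G, k)`, `c ⊗ χ ↦ c • (cast ∘ χ)`. -/
noncomputable def coordMap : k ⊗[ZMod p] Hp →ₗ[k] (Additive G →+ k) :=
  ((castLin (p := p) k).comp Hp.subtype).liftBaseChange k

theorem coordMap_tmul (c : k) (χ : Hp) :
    coordMap k Hp (c ⊗ₜ χ) = c • castHom k (χ : Additive G →+ ZMod p) := rfl

theorem coordMap_tmul_apply (c : k) (χ : Hp) (γ : Additive G) :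
    coordMap k Hp (c ⊗ₜ χ) γ = c * algebraMap (ZMod p) k ((χ : Additive G →+ ZMod p) γ) := rfl

/-- The coordinate map is injective. -/
theorem coordMap_injective : Function.Injective (coordMap k Hp) := by
  classical
  rw [injective_iff_map_eq_zero]
  intro t ht
  let ℬ := Module.Free.chooseBasis (ZMod p) k
  obtain ⟨b, rfl⟩ := TensorProduct.eq_repr_basis_left ℬ t
  have hb : b = 0 := by
    ext i γ
    have h1 : coordMap k Hp (b.sum fun i n => ℬ i ⊗ₜ[ZMod p] n) γ = 0 := by rw [ht]; rfl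
    rw [Finsupp.sum, map_sum, AddMonoidHom.finsetSum_apply] at h1
    have h2 : ∀ j ∈ b.support, coordMap k Hp (ℬ j ⊗ₜ[ZMod p] b j) γ =
        ((b j : Additive G →+ ZMod p) γ) • ℬ j := by
      intro j _
      rw [coordMap_tmul_apply, Algebra.smul_def, mul_comm]
    rw [Finset.sum_congr rfl h2] at h1
    have h3 := congrArg (ℬ.coord i) h1
    rw [map_sum, map_zero] at h3
    simp only [map_smul, Module.Basis.coord_apply, Module.Basis.repr_self, smul_eq_mul,
      Finsupp.single_apply, mul_ite, mul_one, mul_zero, Finset.sum_ite_eq',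
      Finsupp.mem_support_iff, ne_eq] at h3
    by_cases hi : b i = 0
    · rw [hi]; rfl
    · rw [if_pos hi] at h3
      exact h3
  rw [hb]
  simp

/-- For a finitely generated group every `k`-valued homomorphism vanishing on `S` is in the image
of the coordinate map of the `𝔽_p`-valued homomorphisms vanishing on `S`. -/
theorem exists_coordMap_eq [Group.FG G] (S : Set G)
    (hHp : ∀ χ : Additive G →+ ZMod p, χ ∈ Hp ↔ ∀ γ ∈ S, χ (Additive.ofMul γ) = 0)
    (ψ : Additive G →+ k) (hψS : ∀ γ ∈ S, ψ (Additive.ofMul γ) = 0) :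
    ∃ t : k ⊗[ZMod p] Hp, coordMap k Hp t = ψ := by
  classical
  obtain ⟨s, -, hs2⟩ := Fermat.Agent.S41.H16.range_subset_span_of_fg (R := ZMod p) ψ
  let W : Submodule (ZMod p) k := Submodule.span (ZMod p) (s : Set k)
  have hfd : Module.Finite (ZMod p) W := FiniteDimensional.span_finset (ZMod p) s
  have hψW : ∀ γ, ψ γ ∈ W := fun γ => hs2 ⟨γ, rfl⟩
  let ψW : Additive G →+ W := ψ.codRestrict W hψW
  have hψW_coe : ∀ γ, ((ψW γ : W) : k) = ψ γ := fun γ => rfl
  let bW := Module.finBasis (ZMod p) W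
  let χ : Fin (Module.finrank (ZMod p) W) → (Additive G →+ ZMod p) := fun i =>
    (bW.coord i).toAddMonoidHom.comp ψW
  have hχ : ∀ i, χ i ∈ Hp := by
    intro i
    rw [hHp]
    intro γ hγ
    have h0 : ψW (Additive.ofMul γ) = 0 := Subtype.ext (hψS γ hγ)
    show bW.coord i (ψW (Additive.ofMul γ)) = 0
    rw [h0, map_zero]
  refine ⟨∑ i, ((bW i : W) : k) ⊗ₜ[ZMod p] (⟨χ i, hχ i⟩ : Hp), ?_⟩
  refine AddMonoidHom.ext fun γ => ?_
  rw [map_sum, AddMonoidHom.finsetSum_apply]
  have h1 : ∀ i ∈ (Finset.univ : Finset (Fin (Module.finrank (ZMod p) W))),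
      coordMap k Hp (((bW i : W) : k) ⊗ₜ[ZMod p] (⟨χ i, hχ i⟩ : Hp)) γ =
        (((bW.repr (ψW γ) i) • bW i : W) : k) := by
    intro i _
    rw [coordMap_tmul_apply, Submodule.coe_smul, Algebra.smul_def, mul_comm]
    rfl
  rw [Finset.sum_congr rfl h1, ← hψW_coe γ, ← Submodule.coe_sum, bW.sum_repr]

variable {k} {Hp}

/-- **Transfer of eigenvectors, abstract form.**  `AJ : Hp → J` injective `𝔽_p`-linear, `ψ : G → k`
nonzero and vanishing on `S`.  There is one nonzero `v ∈ k ⊗[𝔽_p] J` such that: whenever operators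
`H` on `Hom(G, 𝔽_p)` and `Hk` on `Hom(G, k)` are compatible with the cast, `T` on `J` is
intertwined with `H` by `AJ` (in particular `Hp` is `H`-stable) and `Hk ψ = a • ψ`, then
`(T ⊗ k) v = a • v`. -/
theorem exists_tensor_eigenvector_aux [Group.FG G] (S : Set G)
    (hHp : ∀ χ : Additive G →+ ZMod p, χ ∈ Hp ↔ ∀ γ ∈ S, χ (Additive.ofMul γ) = 0)
    {J : Type*} [AddCommGroup J] [Module (ZMod p) J] (AJ : Hp →ₗ[ZMod p] J)
    (hAJ : Function.Injective AJ) (ψ : Additive G →+ k) (hψ0 : ψ ≠ 0)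
    (hψS : ∀ γ ∈ S, ψ (Additive.ofMul γ) = 0) :
    ∃ v : k ⊗[ZMod p] J, v ≠ 0 ∧
      ∀ (H : (Additive G →+ ZMod p) →+ (Additive G →+ ZMod p))
        (Hk : (Additive G →+ k) →+ (Additive G →+ k)),
        (∀ (c : k) (χ : Additive G →+ ZMod p), Hk (c • castHom k χ) = c • castHom k (H χ)) →
        ∀ (T : J →ₗ[ZMod p] J) (a : k),
          (∀ χ : Hp, ∃ h : H χ ∈ Hp, T (AJ χ) = AJ ⟨H χ, h⟩) → Hk ψ = a • ψ →
            T.baseChange k v = a • v := by
  classical
  obtain ⟨t, ht⟩ := exists_coordMap_eq k Hp S hHp ψ hψS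
  have hinj : Function.Injective (AJ.baseChange k) := by
    rw [LinearMap.baseChange_eq_ltensor]
    exact Module.Flat.lTensor_preserves_injective_linearMap AJ hAJ
  refine ⟨AJ.baseChange k t, ?_, ?_⟩
  · intro h0
    have ht0 : t = 0 := hinj (by rw [h0, map_zero])
    apply hψ0
    rw [← ht, ht0, map_zero]
  · intro H Hk hnat T a hT hψ
    -- the restriction of `H` to `Hp`
    have hstab : ∀ χ : Hp, H χ ∈ Hp := fun χ => (hT χ).1
    let Hres : Hp →ₗ[ZMod p] Hp :=
      ((H.comp Hp.subtype.toAddMonoidHom).codRestrict Hp.toAddSubgroup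
        (fun χ => hstab χ) : Hp →+ Hp).toZModLinearMap p
    have hHres : ∀ χ : Hp, ((Hres χ : Hp) : Additive G →+ ZMod p) = H χ := fun χ => rfl
    have hTAJ : T ∘ₗ AJ = AJ ∘ₗ Hres := by
      refine LinearMap.ext fun χ => ?_
      obtain ⟨h, hχ⟩ := hT χ
      show T (AJ χ) = AJ (Hres χ)
      rw [hχ]
      congr 1
    -- `Hres ⊗ k` corresponds to `Hk` under the coordinate map
    have hcomm : ∀ t' : k ⊗[ZMod p] Hp,
        coordMap k Hp (Hres.baseChange k t') = Hk (coordMap k Hp t') := by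
      intro t'
      induction t' using TensorProduct.induction_on with
      | zero => simp
      | tmul c χ =>
        rw [LinearMap.baseChange_tmul, coordMap_tmul, coordMap_tmul, hnat, hHres]
      | add x y hx hy => rw [map_add, map_add, map_add, map_add, hx, hy]
    have hres : Hres.baseChange k t = a • t := by
      apply coordMap_injective k Hp
      rw [hcomm, ht, hψ, map_smul, ht]
    calc T.baseChange k (AJ.baseChange k t)
        = (T ∘ₗ AJ).baseChange k t := by rw [LinearMap.baseChange_comp]; rfl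
      _ = (AJ ∘ₗ Hres).baseChange k t := by rw [hTAJ]
      _ = AJ.baseChange k (Hres.baseChange k t) := by rw [LinearMap.baseChange_comp]; rfl
      _ = a • AJ.baseChange k t := by rw [hres, map_smul]

end Abstract

/-- The Hecke operators on `Hom(Γ₀(N), ·)` are compatible with the cast and with scalars. -/
theorem heckeHom_smul_castHom {p : ℕ} [Fact p.Prime] {k : Type*} [Field k] [Algebra (ZMod p) k]
    (N : ℕ) (ℓ : Nat.Primes) (c : k) (χ : Additive (Gamma0 N) →+ ZMod p) :
    heckeHom N ℓ k (c • castHom k χ) = c • castHom k (heckeHom N ℓ (ZMod p) χ) := by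
  have h1 : c • castHom k χ =
      ((AddMonoidHom.mulLeft c).comp (algebraMap (ZMod p) k).toAddMonoidHom).comp χ :=
    AddMonoidHom.ext fun γ => rfl
  have h2 : c • castHom k (heckeHom N ℓ (ZMod p) χ) =
      ((AddMonoidHom.mulLeft c).comp (algebraMap (ZMod p) k).toAddMonoidHom).comp
        (heckeHom N ℓ (ZMod p) χ) :=
    AddMonoidHom.ext fun γ => rfl
  rw [h1, h2, Fermat.Agent.S16.H75.heckeHom_comp]

/-- **Transfer of eigenvectors for `Γ₀(N)`.**  `Hp` the `𝔽_p`-valued homomorphisms of `Γ₀(N)`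
vanishing on `S`, `AJ : Hp → J` injective `𝔽_p`-linear, `ψ : Γ₀(N) → k` nonzero and vanishing on
`S`.  There is ONE nonzero `v ∈ k ⊗[𝔽_p] J` such that for every prime `ℓ`, every operator `T` on
`J` with `T ∘ AJ = AJ ∘ T_ℓ` and every eigen-relation `T_ℓ ψ = a • ψ`: `(T ⊗ k) v = a • v`. -/
theorem exists_tensor_eigenvector {p : ℕ} [Fact p.Prime] {k : Type*} [Field k]
    [Algebra (ZMod p) k] (N : ℕ) [NeZero N] (S : Set (Gamma0 N))
    {Hp : Submodule (ZMod p) (Additive (Gamma0 N) →+ ZMod p)}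
    (hHp : ∀ χ : Additive (Gamma0 N) →+ ZMod p, χ ∈ Hp ↔ ∀ γ ∈ S, χ (Additive.ofMul γ) = 0)
    {J : Type*} [AddCommGroup J] [Module (ZMod p) J] (AJ : Hp →ₗ[ZMod p] J)
    (hAJ : Function.Injective AJ) (ψ : Additive (Gamma0 N) →+ k) (hψ0 : ψ ≠ 0)
    (hψS : ∀ γ ∈ S, ψ (Additive.ofMul γ) = 0) :
    ∃ v : k ⊗[ZMod p] J, v ≠ 0 ∧
      ∀ (ℓ : Nat.Primes) (T : J →ₗ[ZMod p] J) (a : k),
        (∀ χ : Hp, ∃ h : heckeHom N ℓ (ZMod p) χ ∈ Hp,
          T (AJ χ) = AJ ⟨heckeHom N ℓ (ZMod p) χ, h⟩) →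
        heckeHom N ℓ k ψ = a • ψ → T.baseChange k v = a • v := by
  have : Group.FG (Gamma0 N) := Fermat.Agent.S22.H75.fg_Gamma0 N
  obtain ⟨v, hv0, hv⟩ := exists_tensor_eigenvector_aux S hHp AJ hAJ ψ hψ0 hψS
  exact ⟨v, hv0, fun ℓ T a hT hψ =>
    hv (heckeHom N ℓ (ZMod p)) (heckeHom N ℓ k) (heckeHom_smul_castHom N ℓ) T a hT hψ⟩

end Fermat.Agent.S29.H16
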