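import Mathlib
import Fermat.Agent.S41.H16.Red
import Fermat.Agent.S41.H16.EigenHom

/-!
# Program A (S29 / S42), leaf EIG: the eigen-homomorphism of an eigenform with values in a field

For a normalised eigenform `f` of level `N`, a subring `𝒪 ⊆ ℂ` containing the eigenvalues `a_ℓ(f)`
and a ring homomorphism `φ : 𝒪 → k` to a field with maximal kernel, there is a nonzero parabolic,
torsion-killing homomorphism `ψ : Γ₀(N) → k` with `T_ℓ ψ = φ(a_ℓ) ψ` for **every** prime `ℓ`.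

Proof: the complex Betti eigenvector `x` of `f` (leaf T1 of S41), `Λ :=` the `𝒪`-span of the values
of `x` (finitely generated since `Γ₀(N)` is), Nakayama (`Λ ≠ 𝔪 Λ`), an `𝒪/𝔪`-linear functional on
`Λ / 𝔪 Λ` not killing the image of `x`, and naturality of `heckeHom` in the coefficients.
-/

set_option autoImplicit false

open CongruenceSubgroup ModularCurve ModularCurve.Period
open Fermat.Agent.S16.H75 (heckeHom)
open ModularFormClass (qCoeff)

namespace Fermat.Agent.S29.H16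

/-- The kernel of a ring homomorphism to a finite field is maximal. -/
theorem ker_isMaximal_of_finite {R : Type*} [CommRing R] {k : Type*} [Field k] [Finite k]
    (φ : R →+* k) : (RingHom.ker φ).IsMaximal := by
  have hprime : (RingHom.ker φ).IsPrime := RingHom.ker_isPrime φ
  have hfin : Finite (R ⧸ RingHom.ker φ) := Finite.of_injective _ (RingHom.kerLift_injective φ)
  exact Ideal.Quotient.maximal_of_isField _ (Finite.isField_of_domain (R ⧸ RingHom.ker φ))

/-- The kernel of a ring homomorphism from `ℤ̄` to a field of positive characteristic is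
maximal. -/
theorem ker_isMaximal_of_charP {k : Type*} [Field k] {p : ℕ} [Fact p.Prime] [CharP k p]
    (φ : integralClosure ℤ ℂ →+* k) : (RingHom.ker φ).IsMaximal := by
  have hprime : (RingHom.ker φ).IsPrime := RingHom.ker_isPrime φ
  refine Ideal.isMaximal_of_isIntegral_of_isMaximal_comap (R := ℤ) (RingHom.ker φ) ?_
  have hcp : ((RingHom.ker φ).comap (algebraMap ℤ (integralClosure ℤ ℂ))).IsPrime :=
    Ideal.comap_isPrime _ _
  refine hcp.isMaximal ?_
  intro hbot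
  have hp : (p : ℤ) ∈ (RingHom.ker φ).comap (algebraMap ℤ (integralClosure ℤ ℂ)) := by
    rw [Ideal.mem_comap, RingHom.mem_ker]
    have : φ (algebraMap ℤ (integralClosure ℤ ℂ) (p : ℤ)) = ((p : ℕ) : k) := by
      simp
    rw [this]
    exact CharP.cast_eq_zero k p
  rw [hbot, Ideal.mem_bot] at hp
  exact (Fact.out : p.Prime).ne_zero (by exact_mod_cast hp)

/-- **Reduction of a complex Betti class to a field.**  `R` a commutative ring embedded in `ℂ`,
`φ : R → k` with maximal kernel, `x : Γ₀(N) → ℂ` nonzero parabolic: there is a nonzero parabolic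
torsion-killing `y : Γ₀(N) → k` such that every eigen-relation `T_ℓ x = c • x` with `c ∈ R`
becomes `T_ℓ y = φ c • y`. -/
theorem exists_field_hom {N : ℕ} [NeZero N] {R : Type*} [CommRing R] [Algebra R ℂ]
    (hinj : Function.Injective (algebraMap R ℂ)) {k : Type*} [Field k] (φ : R →+* k)
    (hφ : (RingHom.ker φ).IsMaximal)
    (x : Additive (Gamma0 N) →+ ℂ) (hx0 : x ≠ 0) (hxpar : IsParabolicHom (Gamma0 N) x) :
    ∃ y : Additive (Gamma0 N) →+ k, y ≠ 0 ∧ IsParabolicHom (Gamma0 N) y ∧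
      (∀ γ : Gamma0 N, IsOfFinOrder γ → y (Additive.ofMul γ) = 0) ∧
      ∀ (ℓ : Nat.Primes) (c : R), heckeHom N ℓ ℂ x = algebraMap R ℂ c • x →
        heckeHom N ℓ k y = φ c • y := by
  classical
  have : Group.FG (Gamma0 N) := Fermat.Agent.S22.H75.fg_Gamma0 N
  set 𝔪 : Ideal R := RingHom.ker φ with h𝔪
  -- the lattice `Λ`
  obtain ⟨s, hs1, hs2⟩ := Fermat.Agent.S41.H16.range_subset_span_of_fg (R := R) x
  let Λ : Submodule R ℂ := Submodule.span R (s : Set ℂ)
  have hΛfg : Λ.FG := ⟨s, rfl⟩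
  have hxΛ : ∀ γ, x γ ∈ Λ := fun γ => hs2 ⟨γ, rfl⟩
  let xΛ : Additive (Gamma0 N) →+ Λ := x.codRestrict Λ hxΛ
  have hxΛ_coe : ∀ γ, ((xΛ γ : Λ) : ℂ) = x γ := fun γ => rfl
  have hspan : Submodule.span R (Set.range xΛ) = ⊤ := by
    rw [eq_top_iff]
    rintro ⟨v, hv⟩ -
    induction hv using Submodule.span_induction with
    | mem v hv =>
      obtain ⟨γ, rfl⟩ := hs1 hv
      exact Submodule.subset_span ⟨γ, rfl⟩
    | zero => exact Submodule.zero_mem _
    | add u v hu hv hu' hv' => exact Submodule.add_mem _ hu' hv'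
    | smul a v hv hv' => exact Submodule.smul_mem _ a hv'
  -- Nakayama: `𝔪 Λ ≠ Λ`
  have hnak : ¬ (⊤ : Submodule R Λ) ≤ 𝔪 • (⊤ : Submodule R Λ) := by
    intro hle
    have hfg : (⊤ : Submodule R Λ).FG := (Submodule.fg_top Λ).mpr hΛfg
    obtain ⟨r, hr1, hr0⟩ :=
      Submodule.exists_sub_one_mem_and_smul_eq_zero_of_fg_of_le_smul 𝔪 _ hfg hle
    obtain ⟨γ₀, hγ₀⟩ : ∃ γ₀, x γ₀ ≠ 0 := by
      by_contra hcon
      push Not at hcon
      exact hx0 (AddMonoidHom.ext hcon)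
    have h0 := hr0 (xΛ γ₀) Submodule.mem_top
    have h0' : algebraMap R ℂ r * x γ₀ = 0 := by
      have := congrArg (fun v : Λ => (v : ℂ)) h0
      simpa [Submodule.coe_smul, hxΛ_coe, Algebra.smul_def] using this
    have hr : r = 0 := by
      rcases mul_eq_zero.mp h0' with h | h
      · exact hinj (by rw [h, map_zero])
      · exact absurd h hγ₀
    rw [hr, zero_sub] at hr1
    exact hφ.ne_top ((Ideal.eq_top_iff_one _).mpr (by simpa using 𝔪.neg_mem hr1))
  obtain ⟨γ₀, hγ₀⟩ : ∃ γ₀, xΛ γ₀ ∉ 𝔪 • (⊤ : Submodule R Λ) := by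
    by_contra hcon
    push Not at hcon
    apply hnak
    have hle : Submodule.span R (Set.range xΛ) ≤ 𝔪 • (⊤ : Submodule R Λ) := by
      rw [Submodule.span_le]
      rintro _ ⟨γ, rfl⟩
      exact hcon γ
    rwa [hspan] at hle
  -- the quotient `Λ / 𝔪 Λ` is a vector space over the field `R / 𝔪`
  letI : Field (R ⧸ 𝔪) := Ideal.Quotient.field 𝔪
  let Q := Λ ⧸ (𝔪 • (⊤ : Submodule R Λ))
  let π : Λ →ₗ[R] Q := Submodule.mkQ (𝔪 • (⊤ : Submodule R Λ))
  have hπ0 : ∀ v : Λ, π v = 0 ↔ v ∈ 𝔪 • (⊤ : Submodule R Λ) := fun v =>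
    Submodule.Quotient.mk_eq_zero _
  have hv0 : π (xΛ γ₀) ≠ 0 := fun h => hγ₀ ((hπ0 _).mp h)
  -- a functional not killing `π (xΛ γ₀)`
  obtain ⟨lam, hlam⟩ : ∃ lam : Module.Dual (R ⧸ 𝔪) Q, lam (π (xΛ γ₀)) ≠ 0 := by
    by_contra hcon
    push Not at hcon
    exact hv0 ((Module.forall_dual_apply_eq_zero_iff (R ⧸ 𝔪) _).mp hcon)
  let φbar : R ⧸ 𝔪 →+* k := RingHom.kerLift φ
  have hφbar : Function.Injective φbar := RingHom.kerLift_injective φ
  -- the composite `Λ → k`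
  let Ψ : Λ →+ k := φbar.toAddMonoidHom.comp (lam.toAddMonoidHom.comp π.toAddMonoidHom)
  have hΨ : ∀ v : Λ, Ψ v = φbar (lam (π v)) := fun v => rfl
  have hΨsmul : ∀ (c : R) (v : Λ), Ψ (c • v) = φ c * Ψ v := by
    intro c v
    rw [hΨ, hΨ, map_smul]
    have h1 : c • π v = (Ideal.Quotient.mk 𝔪 c) • π v := rfl
    rw [h1, map_smul, smul_eq_mul, map_mul]
    rfl
  refine ⟨Ψ.comp xΛ, ?_, ?_, ?_, ?_⟩
  · intro h
    have h1 : Ψ (xΛ γ₀) = 0 := DFunLike.congr_fun h γ₀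
    rw [hΨ] at h1
    exact hlam (hφbar (by rw [h1, map_zero]))
  · intro γ hγ
    have h0 : xΛ (Additive.ofMul γ) = 0 := Subtype.ext (hxpar γ hγ)
    show Ψ (xΛ (Additive.ofMul γ)) = 0
    rw [h0, map_zero]
  · intro γ hγ
    obtain ⟨n, hn, hγn⟩ := hγ.exists_pow_eq_one
    have h1 : (n : ℂ) * x (Additive.ofMul γ) = 0 := by
      have h2 : x (n • Additive.ofMul γ) = n • x (Additive.ofMul γ) := map_nsmul x _ _
      have h3 : n • Additive.ofMul γ = Additive.ofMul (γ ^ n) := rfl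
      rw [h3, hγn] at h2
      have h4 : x (Additive.ofMul (1 : Gamma0 N)) = 0 := map_zero x
      rw [h4] at h2
      rw [← nsmul_eq_mul]; exact h2.symm
    have h5 : x (Additive.ofMul γ) = 0 := by
      rcases mul_eq_zero.mp h1 with h | h
      · exact absurd (Nat.cast_eq_zero.mp h) hn.ne'
      · exact h
    have h0 : xΛ (Additive.ofMul γ) = 0 := Subtype.ext h5
    show Ψ (xΛ (Additive.ofMul γ)) = 0
    rw [h0, map_zero]
  · intro ℓ c hc
    rw [Fermat.Agent.S16.H75.heckeHom_comp]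
    have hΛeig : heckeHom N ℓ Λ xΛ = (DistribSMul.toAddMonoidHom Λ c).comp xΛ := by
      have hinj' : Function.Injective (Λ.subtype.toAddMonoidHom) := Subtype.val_injective
      have h1 : Λ.subtype.toAddMonoidHom.comp (heckeHom N ℓ Λ xΛ) =
          Λ.subtype.toAddMonoidHom.comp ((DistribSMul.toAddMonoidHom Λ c).comp xΛ) := by
        rw [← Fermat.Agent.S16.H75.heckeHom_comp]
        have h2 : Λ.subtype.toAddMonoidHom.comp xΛ = x := AddMonoidHom.ext fun γ => rfl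
        rw [h2, hc]
        refine AddMonoidHom.ext fun γ => ?_
        show algebraMap R ℂ c • x γ = ((c • xΛ γ : Λ) : ℂ)
        rw [Submodule.coe_smul, hxΛ_coe, Algebra.smul_def c (x γ), smul_eq_mul]
      refine AddMonoidHom.ext fun γ => ?_
      exact hinj' (DFunLike.congr_fun h1 γ)
    rw [hΛeig]
    refine AddMonoidHom.ext fun γ => ?_
    show Ψ (c • xΛ γ) = φ c • Ψ (xΛ γ)
    rw [hΨsmul, smul_eq_mul]

/-- **Leaf EIG, subring form** (the shape of the Prelude's `IsEigenformIdeal`): a normalised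
eigenform, a subring `𝒪 ⊆ ℂ` containing its prime-indexed coefficients and `φ : 𝒪 → k` with maximal
kernel give a nonzero parabolic torsion-killing `ψ : Γ₀(N) → k` with `T_ℓ ψ = φ(a_ℓ) ψ` for every
prime `ℓ` (including `ℓ ∣ N` and the residue characteristic). -/
theorem exists_eigenHom_of_subring (N : ℕ) [NeZero N] (f : CuspForm (Gamma0 N) 2)
    (hf : f.IsNormalizedEigenform) (𝒪 : Subring ℂ) (h𝒪 : ∀ ℓ : Nat.Primes, qCoeff f ℓ ∈ 𝒪)
    {k : Type*} [Field k] (φ : 𝒪 →+* k) (hφ : (RingHom.ker φ).IsMaximal) :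
    ∃ ψ : Additive (Gamma0 N) →+ k, ψ ≠ 0 ∧ IsParabolicHom (Gamma0 N) ψ ∧
      (∀ γ : Gamma0 N, IsOfFinOrder γ → ψ (Additive.ofMul γ) = 0) ∧
      ∀ ℓ : Nat.Primes, heckeHom N ℓ k ψ = φ ⟨qCoeff f ℓ, h𝒪 ℓ⟩ • ψ := by
  obtain ⟨x, hxpar, hx0, hxeig⟩ := Fermat.Agent.S41.H16.exists_eigenHom_of_eigenform N f hf
  let _ : Algebra 𝒪 ℂ := 𝒪.subtype.toAlgebra
  have hinj : Function.Injective (algebraMap 𝒪 ℂ) := Subtype.val_injective
  obtain ⟨y, hy0, hypar, hytk, hyeig⟩ := exists_field_hom hinj φ hφ x hx0 hxpar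
  refine ⟨y, hy0, hypar, hytk, fun ℓ => hyeig ℓ ⟨qCoeff f ℓ, h𝒪 ℓ⟩ ?_⟩
  rw [hxeig ℓ]
  rfl

/-- **Leaf EIG, `ℤ̄` form** (the shape of S29 / S42): a normalised eigenform and `φ : ℤ̄ → k` with
maximal kernel give a nonzero parabolic torsion-killing `ψ : Γ₀(N) → k` with `T_ℓ ψ = φ(a) ψ`
for every prime `ℓ` and every `a ∈ ℤ̄` with `a = a_ℓ(f)`. -/
theorem exists_eigenHom_field (N : ℕ) [NeZero N] (f : CuspForm (Gamma0 N) 2)
    (hf : f.IsNormalizedEigenform) {k : Type*} [Field k] (φ : integralClosure ℤ ℂ →+* k)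
    (hφ : (RingHom.ker φ).IsMaximal) :
    ∃ ψ : Additive (Gamma0 N) →+ k, ψ ≠ 0 ∧ IsParabolicHom (Gamma0 N) ψ ∧
      (∀ γ : Gamma0 N, IsOfFinOrder γ → ψ (Additive.ofMul γ) = 0) ∧
      ∀ (ℓ : Nat.Primes) (a : integralClosure ℤ ℂ), (a : ℂ) = qCoeff f ℓ →
        heckeHom N ℓ k ψ = φ a • ψ := by
  obtain ⟨x, hxpar, hx0, hxeig⟩ := Fermat.Agent.S41.H16.exists_eigenHom_of_eigenform N f hf
  have hinj : Function.Injective (algebraMap (integralClosure ℤ ℂ) ℂ) := Subtype.val_injective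
  obtain ⟨y, hy0, hypar, hytk, hyeig⟩ := exists_field_hom hinj φ hφ x hx0 hxpar
  refine ⟨y, hy0, hypar, hytk, fun ℓ a ha => hyeig ℓ a ?_⟩
  rw [hxeig ℓ, ← ha]
  rfl

end Fermat.Agent.S29.H16
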