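import Mathlib
import Fermat.Agent.S16.H75.Gamma0Hecke
import Fermat.Agent.S41.H26.ParabolicCorr

/-!
# Program A (S29 / S42): Hecke operators preserve parabolic and torsion-killing homomorphisms,
for ARBITRARY coefficients

The landed `Fermat.Agent.S41.H26.isParabolicHom_heckeHom` needs torsion-free coefficients (it uses
`γ ^ (card ι)!`).  Here the index set is decomposed into the orbits of `perm γ`: the sum of
`u (coc γ i)` over an orbit of length `m` is `u (coc (γ ^ m) i)`, and `coc (γ ^ m) i` is conjugate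
to `γ ^ m` by `α i`, hence again parabolic (same trace), resp. of finite order.  So the statements
hold for every abelian group `A`, in particular for `A = ZMod p`:

* `isParabolicHom_corrOp`, `torsionKilling_corrOp` (correspondence systems of `S41/H41`);
* `isParabolicHom_heckeOp`, `torsionKilling_heckeOp` (Hecke systems of `S16/H75`);
* `isParabolicHom_heckeHom`, `torsionKilling_heckeHom` (the operators `T_ℓ`, `U_ℓ` on `Γ₀(N)`).
-/

set_option autoImplicit false

open ModularCurve.Period CongruenceSubgroup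
open scoped MatrixGroups
open Fermat.Agent.S16.H75 Fermat.Agent.S41.H41

namespace Fermat.Agent.S29.H16

/-- A sum over a finite set stable under a permutation vanishes as soon as all sums over
(not necessarily minimal) periods vanish. -/
theorem sum_eq_zero_of_orbit_sums {ι : Type*} [Fintype ι] [DecidableEq ι] {A : Type*}
    [AddCommMonoid A] (σ : Equiv.Perm ι) (f : ι → A)
    (hf : ∀ (i : ι) (m : ℕ), 0 < m → (⇑σ)^[m] i = i →
      ∑ j ∈ Finset.range m, f ((⇑σ)^[j] i) = 0) :
    ∀ s : Finset ι, (∀ i, σ i ∈ s ↔ i ∈ s) → ∑ i ∈ s, f i = 0 := by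
  intro s
  induction s using Finset.strongInduction with
  | H s ih =>
    intro hs
    rcases s.eq_empty_or_nonempty with rfl | ⟨i₀, hi₀⟩
    · simp
    have hper : Function.IsPeriodicPt (⇑σ) (orderOf σ) i₀ := by
      show (⇑σ)^[orderOf σ] i₀ = i₀
      rw [Equiv.Perm.iterate_eq_pow, pow_orderOf_eq_one]
      rfl
    set m := Function.minimalPeriod (⇑σ) i₀ with hm_def
    have hm : 0 < m := hper.minimalPeriod_pos (orderOf_pos σ)
    have hmi : (⇑σ)^[m] i₀ = i₀ := Function.iterate_minimalPeriod
    let O : Finset ι := (Finset.range m).image fun j => (⇑σ)^[j] i₀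
    have hiter : ∀ j : ℕ, (⇑σ)^[j] i₀ ∈ s := by
      intro j
      induction j with
      | zero => exact hi₀
      | succ j ihj =>
        rw [Function.iterate_succ_apply']
        exact (hs _).mpr ihj
    have hOs : O ⊆ s := by
      intro i hi
      obtain ⟨j, -, rfl⟩ := Finset.mem_image.mp hi
      exact hiter j
    have hOst : ∀ i, σ i ∈ O ↔ i ∈ O := by
      intro i
      constructor
      · intro hi
        obtain ⟨j, hj, hji⟩ := Finset.mem_image.mp hi
        rw [Finset.mem_range] at hj
        cases j with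
        | zero =>
          have e : (m - 1).succ = m := by omega
          have h1 : σ ((⇑σ)^[m - 1] i₀) = σ i := by
            rw [← Function.iterate_succ_apply' (⇑σ) (m - 1) i₀, e, hmi]
            exact hji
          have h2 : (⇑σ)^[m - 1] i₀ = i := σ.injective h1
          exact Finset.mem_image.mpr ⟨m - 1, Finset.mem_range.mpr (by omega), h2⟩
        | succ j =>
          have h1 : σ ((⇑σ)^[j] i₀) = σ i := by
            rw [← Function.iterate_succ_apply' (⇑σ) j i₀]
            exact hji
          have h2 : (⇑σ)^[j] i₀ = i := σ.injective h1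
          exact Finset.mem_image.mpr ⟨j, Finset.mem_range.mpr (by omega), h2⟩
      · intro hi
        obtain ⟨j, hj, rfl⟩ := Finset.mem_image.mp hi
        rw [Finset.mem_range] at hj
        by_cases hjm : j + 1 < m
        · refine Finset.mem_image.mpr ⟨j + 1, Finset.mem_range.mpr hjm, ?_⟩
          exact Function.iterate_succ_apply' (⇑σ) j i₀
        · have hj1 : j.succ = m := by omega
          refine Finset.mem_image.mpr ⟨0, Finset.mem_range.mpr hm, ?_⟩
          show i₀ = σ ((⇑σ)^[j] i₀)
          rw [← Function.iterate_succ_apply' (⇑σ) j i₀, hj1, hmi]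
    have hi₀O : i₀ ∈ O := Finset.mem_image.mpr ⟨0, Finset.mem_range.mpr hm, rfl⟩
    have hlt : s \ O ⊂ s := by
      refine Finset.ssubset_iff_subset_ne.mpr ⟨Finset.sdiff_subset, fun heq => ?_⟩
      have : i₀ ∈ s \ O := by rw [heq]; exact hi₀
      exact (Finset.mem_sdiff.mp this).2 hi₀O
    have hst' : ∀ i, σ i ∈ s \ O ↔ i ∈ s \ O := by
      intro i
      rw [Finset.mem_sdiff, Finset.mem_sdiff, hs i, hOst i]
    have h1 := ih (s \ O) hlt hst'
    have hinj : Set.InjOn (fun j => (⇑σ)^[j] i₀) (Finset.range m : Set ℕ) := by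
      intro a ha b hb hab
      rw [Finset.coe_range] at ha hb
      exact Function.iterate_injOn_Iio_minimalPeriod ha hb hab
    have h2 : ∑ i ∈ O, f i = 0 := by
      rw [Finset.sum_image hinj]
      exact hf i₀ m hm hmi
    rw [← Finset.sum_sdiff hOs, h1, h2, add_zero]

section Corr

variable {Γ₁ Γ₂ : Subgroup SL(2, ℤ)} {ι : Type*} {α : ι → Matrix (Fin 2) (Fin 2) ℤ}
  (h : IsCorrSys Γ₁ Γ₂ α)

/-- The value of a homomorphism on the cocycle of a power is the sum along the orbit. -/
theorem map_coc_pow {A : Type*} [AddCommGroup A] (u : Additive Γ₂ →+ A) (γ : Γ₁) (i : ι)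
    (n : ℕ) :
    u (Additive.ofMul (h.coc (γ ^ n) i)) =
      ∑ j ∈ Finset.range n, u (Additive.ofMul (h.coc γ ((h.perm γ)^[j] i))) := by
  induction n with
  | zero =>
    rw [pow_zero, h.coc_one, Finset.range_zero, Finset.sum_empty]
    exact map_zero u
  | succ n ih =>
    rw [pow_succ, h.coc_mul, ofMul_mul, map_add, ih, Finset.sum_range_succ,
      Fermat.Agent.S41.H26.perm_pow h]

/-- On a fixed index the cocycle is multiplicative in powers. -/
theorem coc_pow_of_perm_eq (g : Γ₁) (i : ι) (hi : h.perm g i = i) (n : ℕ) :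
    h.coc (g ^ n) i = h.coc g i ^ n := by
  induction n with
  | zero => rw [pow_zero, pow_zero, h.coc_one]
  | succ n ih =>
    have hp : h.perm (g ^ n) i = i := by
      rw [Fermat.Agent.S41.H26.perm_pow h]
      exact Function.iterate_fixed hi n
    rw [pow_succ, h.coc_mul, ih, hp, pow_succ]

variable [Fintype ι] {A : Type*} [AddCommGroup A]

/-- **Orbit criterion.**  `corrOp u γ = 0` as soon as `u` kills the cocycles `coc (γ ^ m) i` of
the powers of `γ` fixing the index `i`. -/
theorem corrOp_apply_eq_zero_of_orbits (u : Additive Γ₂ →+ A) (γ : Γ₁)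
    (hu : ∀ (i : ι) (m : ℕ), 0 < m → h.perm (γ ^ m) i = i →
      u (Additive.ofMul (h.coc (γ ^ m) i)) = 0) :
    h.corrOp u (Additive.ofMul γ) = 0 := by
  classical
  rw [IsCorrSys.corrOp_apply]
  refine sum_eq_zero_of_orbit_sums (h.permEquiv γ)
    (fun i => u (Additive.ofMul (h.coc γ i))) ?_ Finset.univ (fun i => by simp)
  intro i m hm hi
  have hi' : (h.perm γ)^[m] i = i := hi
  have h1 := map_coc_pow h u γ i m
  have h2 : ∑ j ∈ Finset.range m, u (Additive.ofMul (h.coc γ ((⇑(h.permEquiv γ))^[j] i))) =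
      ∑ j ∈ Finset.range m, u (Additive.ofMul (h.coc γ ((h.perm γ)^[j] i))) := rfl
  rw [h2, ← h1]
  exact hu i m hm (by rw [Fermat.Agent.S41.H26.perm_pow h]; exact hi')

/-- A correspondence operator preserves parabolic homomorphisms (arbitrary coefficients). -/
theorem isParabolicHom_corrOp {u : Additive Γ₂ →+ A} (hu : IsParabolicHom Γ₂ u) :
    IsParabolicHom Γ₁ (h.corrOp u) := by
  intro γ hγ
  refine corrOp_apply_eq_zero_of_orbits h u γ fun i m _ hi => hu _ ?_
  show (mat (h.coc (γ ^ m) i)).trace ^ 2 = 4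
  rw [Fermat.Agent.S41.H26.trace_coc_of_perm_eq h hi, Fermat.Agent.S41.H26.mat_pow]
  exact Fermat.Agent.S41.H26.trace_pow_sq_eq_four _ (Fermat.Agent.S41.H26.det_mat γ) hγ _

/-- A correspondence operator preserves homomorphisms killing the elements of finite order
(arbitrary coefficients). -/
theorem torsionKilling_corrOp {u : Additive Γ₂ →+ A}
    (hu : ∀ g : Γ₂, IsOfFinOrder g → u (Additive.ofMul g) = 0) (γ : Γ₁) (hγ : IsOfFinOrder γ) :
    h.corrOp u (Additive.ofMul γ) = 0 := by
  refine corrOp_apply_eq_zero_of_orbits h u γ fun i m _ hi => hu _ ?_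
  obtain ⟨n, hn, hγn⟩ := hγ.exists_pow_eq_one
  refine isOfFinOrder_iff_pow_eq_one.mpr ⟨n, hn, ?_⟩
  rw [← coc_pow_of_perm_eq h (γ ^ m) i hi n, ← pow_mul, mul_comm, pow_mul, hγn, one_pow,
    h.coc_one]

end Corr

section Hecke

variable {Γ : Subgroup SL(2, ℤ)} {ι : Type*} [Fintype ι] {α : ι → Matrix (Fin 2) (Fin 2) ℤ}
  (h : IsHeckeSys Γ α) {A : Type*} [AddCommGroup A]

/-- The Hecke operator of a Hecke system preserves parabolic homomorphisms (arbitrary
coefficients). -/
theorem isParabolicHom_heckeOp {u : Additive Γ →+ A} (hu : IsParabolicHom Γ u) :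
    IsParabolicHom Γ (h.heckeOp u) := by
  rw [← corrOp_eq_heckeOp h]
  exact isParabolicHom_corrOp (isCorrSys_of_isHeckeSys h) hu

/-- The Hecke operator of a Hecke system preserves torsion-killing homomorphisms (arbitrary
coefficients). -/
theorem torsionKilling_heckeOp {u : Additive Γ →+ A}
    (hu : ∀ g : Γ, IsOfFinOrder g → u (Additive.ofMul g) = 0) (γ : Γ) (hγ : IsOfFinOrder γ) :
    h.heckeOp u (Additive.ofMul γ) = 0 := by
  rw [← corrOp_eq_heckeOp h]
  exact torsionKilling_corrOp (isCorrSys_of_isHeckeSys h) hu γ hγ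

end Hecke

/-- `T_ℓ` / `U_ℓ` on `Hom(Γ₀(N), A)` preserve parabolic homomorphisms, for every abelian group
`A` (in particular `A = ZMod p`). -/
theorem isParabolicHom_heckeHom (N : ℕ) (ℓ : Nat.Primes) {A : Type*} [AddCommGroup A]
    {v : Additive (Gamma0 N) →+ A} (hv : IsParabolicHom (Gamma0 N) v) :
    IsParabolicHom (Gamma0 N) (heckeHom N ℓ A v) := by
  by_cases h : (ℓ : ℕ) ∣ N
  · rw [heckeHom_of_dvd h]
    exact isParabolicHom_heckeOp _ hv
  · rw [heckeHom_of_not_dvd h]
    exact isParabolicHom_heckeOp _ hv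

/-- `T_ℓ` / `U_ℓ` on `Hom(Γ₀(N), A)` preserve the homomorphisms killing the elements of finite
order, for every abelian group `A`. -/
theorem torsionKilling_heckeHom (N : ℕ) (ℓ : Nat.Primes) {A : Type*} [AddCommGroup A]
    {v : Additive (Gamma0 N) →+ A}
    (hv : ∀ γ : Gamma0 N, IsOfFinOrder γ → v (Additive.ofMul γ) = 0) (γ : Gamma0 N)
    (hγ : IsOfFinOrder γ) : heckeHom N ℓ A v (Additive.ofMul γ) = 0 := by
  by_cases h : (ℓ : ℕ) ∣ N
  · rw [heckeHom_of_dvd h]
    exact torsionKilling_heckeOp _ hv γ hγ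
  · rw [heckeHom_of_not_dvd h]
    exact torsionKilling_heckeOp _ hv γ hγ

end Fermat.Agent.S29.H16
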