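import Fermat.Agent.S29.H16.EigenHomK
import Fermat.Agent.S29.H16.ParTors
import Fermat.Agent.S29.H16.Coords

/-!
# Program A (S29 / S42), consumer side of (AJ): the eigenvector attached to an eigenform

`Hp` = the `𝔽_p`-space of parabolic, torsion-killing homomorphisms `Γ₀(N) → ZMod p`.

* `heckeHom_mem`: `Hp` is stable under every `heckeHom N ℓ (ZMod p)` (all primes `ℓ`).
* `exists_eigenvector_of_eigenform`: for a normalised eigenform `f` of level `N`, a ring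
  homomorphism `φ : ℤ̄ → k` with maximal kernel (`k` a field of characteristic `p`) and ANY injective
  `𝔽_p`-linear map `AJ : Hp → J`, there is ONE nonzero `v ∈ k ⊗[𝔽_p] J` such that for every prime `ℓ`
  and every `𝔽_p`-linear `T : J → J` with `T ∘ AJ = AJ ∘ T_ℓ`:  `(T ⊗ k) v = φ(a_ℓ(f)) • v`.
-/

set_option autoImplicit false

open scoped TensorProduct
open CongruenceSubgroup ModularCurve ModularCurve.Period
open Fermat.Agent.S16.H75 (heckeHom)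
open ModularFormClass (qCoeff)

namespace Fermat.Agent.S29.H16

/-- The set of parabolic or finite-order elements of `Γ₀(N)`. -/
def parTorsSet (N : ℕ) : Set (Gamma0 N) :=
  {γ | ((γ : Matrix.SpecialLinearGroup (Fin 2) ℤ) : Matrix (Fin 2) (Fin 2) ℤ).trace ^ 2 = 4 ∨
    IsOfFinOrder γ}

/-- A homomorphism vanishes on `parTorsSet N` iff it is parabolic and torsion-killing. -/
theorem forall_mem_parTorsSet_iff {N : ℕ} {A : Type*} [AddCommGroup A]
    (χ : Additive (Gamma0 N) →+ A) :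
    (∀ γ ∈ parTorsSet N, χ (Additive.ofMul γ) = 0) ↔
      (IsParabolicHom (Gamma0 N) χ ∧ ∀ γ : Gamma0 N, IsOfFinOrder γ → χ (Additive.ofMul γ) = 0) :=
  ⟨fun h => ⟨fun γ hγ => h γ (Or.inl hγ), fun γ hγ => h γ (Or.inr hγ)⟩,
    fun h γ hγ => hγ.elim (h.1 γ) (h.2 γ)⟩

/-- The parabolic torsion-killing homomorphisms are stable under all Hecke operators, for
arbitrary coefficients. -/
theorem heckeHom_par_tk (N : ℕ) (ℓ : Nat.Primes) {A : Type*} [AddCommGroup A]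
    {χ : Additive (Gamma0 N) →+ A}
    (h : IsParabolicHom (Gamma0 N) χ ∧ ∀ γ : Gamma0 N, IsOfFinOrder γ → χ (Additive.ofMul γ) = 0) :
    IsParabolicHom (Gamma0 N) (heckeHom N ℓ A χ) ∧
      ∀ γ : Gamma0 N, IsOfFinOrder γ → heckeHom N ℓ A χ (Additive.ofMul γ) = 0 :=
  ⟨isParabolicHom_heckeHom N ℓ h.1, torsionKilling_heckeHom N ℓ h.2⟩

/-- Stability of `Hp` under the Hecke operators. -/
theorem heckeHom_mem {p : ℕ} {N : ℕ}
    {Hp : Submodule (ZMod p) (Additive (Gamma0 N) →+ ZMod p)}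
    (hHp : ∀ χ : Additive (Gamma0 N) →+ ZMod p, χ ∈ Hp ↔
      (IsParabolicHom (Gamma0 N) χ ∧ ∀ γ : Gamma0 N, IsOfFinOrder γ → χ (Additive.ofMul γ) = 0))
    (ℓ : Nat.Primes) {χ : Additive (Gamma0 N) →+ ZMod p} (hχ : χ ∈ Hp) :
    heckeHom N ℓ (ZMod p) χ ∈ Hp :=
  (hHp _).mpr (heckeHom_par_tk N ℓ ((hHp χ).mp hχ))

/-- **Consumer side of (AJ).**  A normalised eigenform `f` of level `N`, `φ : ℤ̄ → k` with maximal
kernel, `k` of characteristic `p`, `Hp` the parabolic torsion-killing homomorphisms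
`Γ₀(N) → ZMod p` and an injective `𝔽_p`-linear `AJ : Hp → J`: there is ONE nonzero
`v ∈ k ⊗[𝔽_p] J` with `(T ⊗ k) v = φ(a_ℓ(f)) • v` for every prime `ℓ` and every `T` on `J`
intertwined with `T_ℓ` by `AJ`. -/
theorem exists_eigenvector_of_eigenform {p : ℕ} [Fact p.Prime] {k : Type*} [Field k]
    [Algebra (ZMod p) k] (N : ℕ) [NeZero N] (f : CuspForm (Gamma0 N) 2)
    (hf : f.IsNormalizedEigenform) (φ : integralClosure ℤ ℂ →+* k)
    (hφ : (RingHom.ker φ).IsMaximal)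
    {Hp : Submodule (ZMod p) (Additive (Gamma0 N) →+ ZMod p)}
    (hHp : ∀ χ : Additive (Gamma0 N) →+ ZMod p, χ ∈ Hp ↔
      (IsParabolicHom (Gamma0 N) χ ∧ ∀ γ : Gamma0 N, IsOfFinOrder γ → χ (Additive.ofMul γ) = 0))
    {J : Type*} [AddCommGroup J] [Module (ZMod p) J] (AJ : Hp →ₗ[ZMod p] J)
    (hAJ : Function.Injective AJ) :
    ∃ v : k ⊗[ZMod p] J, v ≠ 0 ∧
      ∀ (ℓ : Nat.Primes) (T : J →ₗ[ZMod p] J),
        (∀ χ : Hp, T (AJ χ) = AJ ⟨heckeHom N ℓ (ZMod p) χ, heckeHom_mem hHp ℓ χ.2⟩) →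
        ∀ a : integralClosure ℤ ℂ, (a : ℂ) = qCoeff f ℓ → T.baseChange k v = φ a • v := by
  obtain ⟨ψ, hψ0, hψpar, hψtk, hψeig⟩ := exists_eigenHom_field N f hf φ hφ
  have hHp' : ∀ χ : Additive (Gamma0 N) →+ ZMod p, χ ∈ Hp ↔
      ∀ γ ∈ parTorsSet N, χ (Additive.ofMul γ) = 0 := fun χ =>
    (hHp χ).trans (forall_mem_parTorsSet_iff χ).symm
  obtain ⟨v, hv0, hv⟩ := exists_tensor_eigenvector N (parTorsSet N) hHp' AJ hAJ ψ hψ0
    ((forall_mem_parTorsSet_iff ψ).mpr ⟨hψpar, hψtk⟩)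
  exact ⟨v, hv0, fun ℓ T hT a ha =>
    hv ℓ T (φ a) (fun χ => ⟨heckeHom_mem hHp ℓ χ.2, hT χ⟩) (hψeig ℓ a ha)⟩

end Fermat.Agent.S29.H16
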