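import Fermat.Agent.S29.H16.EigenVector
import Fermat.Agent.S41.H79.Lift
import Fermat.Agent.S41.H26.ParabolicHecke

/-!
# Program A (S29 / S42), consumer side of the INTEGRAL (AJ) (shape (R1) of lead note 17)

`L := parabolicHoms ℤ (Gamma0 N) ℤ`.  Let `AJ : L →+ J'` be additive with kernel exactly `p L`
(`J'` any `𝔽_p`-module, e.g. the `p`-torsion of `JZero N`).  Then for a normalised eigenform `f` of
level `N` and `φ : ℤ̄ → k` with maximal kernel (`k` a field of characteristic `p`) there is ONE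
nonzero `v ∈ k ⊗[𝔽_p] J'` such that for every prime `ℓ` and every `𝔽_p`-linear `T : J' → J'` with
`T (AJ ψ) = AJ (T_ℓ ψ)` on `L`:  `(T ⊗ k) v = φ(a_ℓ(f)) • v`.

Proof: `AJ` factors through the reduction `L → Hp` (parabolic torsion-killing homomorphisms to
`ZMod p`; surjective by the landed LIFT of `S41/H79`, kernel `p L`) as an injective `𝔽_p`-linear map,
to which `exists_eigenvector_of_eigenform` applies.
-/

set_option autoImplicit false

open scoped TensorProduct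
open CongruenceSubgroup ModularCurve ModularCurve.Period
open Fermat.Agent.S16.H75 (heckeHom)
open ModularFormClass (qCoeff)

namespace Fermat.Agent.S29.H16

/-- The `𝔽_p`-space of parabolic, torsion-killing homomorphisms `Γ₀(N) → ZMod p`. -/
def parTkHoms (N p : ℕ) : Submodule (ZMod p) (Additive (Gamma0 N) →+ ZMod p) where
  carrier := {χ | IsParabolicHom (Gamma0 N) χ ∧
    ∀ γ : Gamma0 N, IsOfFinOrder γ → χ (Additive.ofMul γ) = 0}
  zero_mem' := ⟨fun _ _ => rfl, fun _ _ => rfl⟩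
  add_mem' := by
    rintro χ χ' ⟨h1, h2⟩ ⟨h1', h2'⟩
    refine ⟨fun γ hγ => ?_, fun γ hγ => ?_⟩
    · show χ (Additive.ofMul γ) + χ' (Additive.ofMul γ) = 0
      rw [h1 γ hγ, h1' γ hγ, add_zero]
    · show χ (Additive.ofMul γ) + χ' (Additive.ofMul γ) = 0
      rw [h2 γ hγ, h2' γ hγ, add_zero]
  smul_mem' := by
    rintro c χ ⟨h1, h2⟩
    refine ⟨fun γ hγ => ?_, fun γ hγ => ?_⟩
    · show c • χ (Additive.ofMul γ) = 0
      rw [h1 γ hγ, smul_zero]
    · show c • χ (Additive.ofMul γ) = 0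
      rw [h2 γ hγ, smul_zero]

theorem mem_parTkHoms_iff {N p : ℕ} (χ : Additive (Gamma0 N) →+ ZMod p) :
    χ ∈ parTkHoms N p ↔ (IsParabolicHom (Gamma0 N) χ ∧
      ∀ γ : Gamma0 N, IsOfFinOrder γ → χ (Additive.ofMul γ) = 0) := Iff.rfl

/-- The reduction mod `p` of an integral parabolic homomorphism is parabolic and
torsion-killing. -/
theorem red_mem_parTkHoms {N : ℕ} (p : ℕ) {ψ : Additive (Gamma0 N) →+ ℤ}
    (hψ : ψ ∈ parabolicHoms ℤ (Gamma0 N) ℤ) :
    (Int.castAddHom (ZMod p)).comp ψ ∈ parTkHoms N p :=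
  ⟨Fermat.Agent.S41.H79.isParabolicHom_comp _ hψ,
    fun γ hγ => Fermat.Agent.S41.H79.cast_apply_eq_zero_of_isOfFinOrder p ψ γ hγ⟩

/-- **Consumer side of the integral (AJ).** -/
theorem exists_eigenvector_of_int {p : ℕ} [Fact p.Prime] {k : Type*} [Field k]
    [Algebra (ZMod p) k] (N : ℕ) [NeZero N] (f : CuspForm (Gamma0 N) 2)
    (hf : f.IsNormalizedEigenform) (φ : integralClosure ℤ ℂ →+* k)
    (hφ : (RingHom.ker φ).IsMaximal)
    {J' : Type*} [AddCommGroup J'] [Module (ZMod p) J']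
    (AJ : ↥(parabolicHoms ℤ (Gamma0 N) ℤ) →+ J')
    (hker : ∀ ψ : ↥(parabolicHoms ℤ (Gamma0 N) ℤ),
      AJ ψ = 0 ↔ ∃ ψ' : ↥(parabolicHoms ℤ (Gamma0 N) ℤ), ψ = p • ψ') :
    ∃ v : k ⊗[ZMod p] J', v ≠ 0 ∧
      ∀ (ℓ : Nat.Primes) (T : J' →ₗ[ZMod p] J'),
        (∀ ψ : ↥(parabolicHoms ℤ (Gamma0 N) ℤ), T (AJ ψ) =
          AJ ⟨heckeHom N ℓ ℤ ψ, Fermat.Agent.S41.H26.heckeHom_mem_parabolicHoms N ℓ ψ.2⟩) →
        ∀ a : integralClosure ℤ ℂ, (a : ℂ) = qCoeff f ℓ → T.baseChange k v = φ a • v := by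
  classical
  let red : (Additive (Gamma0 N) →+ ℤ) → (Additive (Gamma0 N) →+ ZMod p) := fun ψ =>
    (Int.castAddHom (ZMod p)).comp ψ
  -- `AJ` only depends on the reduction
  have hdep : ∀ x y : ↥(parabolicHoms ℤ (Gamma0 N) ℤ), red x = red y → AJ x = AJ y := by
    intro x y hxy
    have h0 : red ((x - y : ↥(parabolicHoms ℤ (Gamma0 N) ℤ)) : Additive (Gamma0 N) →+ ℤ) = 0 := by
      refine AddMonoidHom.ext fun γ => ?_
      have := DFunLike.congr_fun hxy γ
      show (((x : Additive (Gamma0 N) →+ ℤ) γ - (y : Additive (Gamma0 N) →+ ℤ) γ : ℤ) : ZMod p) = 0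
      have h1 : (((x : Additive (Gamma0 N) →+ ℤ) γ : ℤ) : ZMod p) =
          (((y : Additive (Gamma0 N) →+ ℤ) γ : ℤ) : ZMod p) := this
      rw [Int.cast_sub, h1, sub_self]
    obtain ⟨ψ', hψ', hxy'⟩ := Fermat.Agent.S41.H79.mem_nsmul_parabolicHoms_of_cast_eq_zero N p
      ((x - y : ↥(parabolicHoms ℤ (Gamma0 N) ℤ)) : Additive (Gamma0 N) →+ ℤ) (x - y).2 h0
    have h1 : AJ (x - y) = 0 := (hker (x - y)).mpr ⟨⟨ψ', hψ'⟩, Subtype.ext hxy'⟩
    rw [map_sub, sub_eq_zero] at h1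
    exact h1
  -- lifts
  have hlift : ∀ χ : parTkHoms N p, ∃ x : ↥(parabolicHoms ℤ (Gamma0 N) ℤ), red x = χ := by
    intro χ
    obtain ⟨ψ, hψ, h⟩ :=
      Fermat.Agent.S41.H79.exists_mem_parabolicHoms_int_lift N p χ χ.2.1 χ.2.2
    exact ⟨⟨ψ, hψ⟩, h⟩
  choose lift hlift' using hlift
  -- the induced map on `Hp`
  let AJ₀ : parTkHoms N p →+ J' :=
    { toFun := fun χ => AJ (lift χ)
      map_zero' := by
        have : AJ (lift 0) = AJ 0 := hdep _ _ (by
          rw [hlift']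
          refine AddMonoidHom.ext fun γ => ?_
          show (0 : ZMod p) = (((0 : ℤ)) : ZMod p)
          exact Int.cast_zero.symm)
        rw [this, map_zero]
      map_add' := fun χ χ' => by
        rw [← map_add]
        refine hdep _ _ ?_
        rw [hlift']
        refine AddMonoidHom.ext fun γ => ?_
        have e1 := DFunLike.congr_fun (hlift' χ) γ
        have e2 := DFunLike.congr_fun (hlift' χ') γ
        show ((χ : Additive (Gamma0 N) →+ ZMod p) γ + (χ' : Additive (Gamma0 N) →+ ZMod p) γ) =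
          ((((lift χ : Additive (Gamma0 N) →+ ℤ) γ + (lift χ' : Additive (Gamma0 N) →+ ℤ) γ : ℤ)) :
            ZMod p)
        rw [Int.cast_add, ← e1, ← e2]
        rfl }
  let AJ₁ : parTkHoms N p →ₗ[ZMod p] J' := AJ₀.toZModLinearMap p
  have hAJ₁ : ∀ χ, AJ₁ χ = AJ (lift χ) := fun χ => rfl
  have hinj : Function.Injective AJ₁ := by
    rw [injective_iff_map_eq_zero]
    intro χ hχ
    rw [hAJ₁] at hχ
    obtain ⟨ψ', hψ'⟩ := (hker _).mp hχ
    apply Subtype.ext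
    rw [← hlift' χ, hψ']
    refine AddMonoidHom.ext fun γ => ?_
    show (((p • (ψ' : Additive (Gamma0 N) →+ ℤ) γ : ℤ)) : ZMod p) = 0
    rw [nsmul_eq_mul, Int.cast_mul]
    simp
  obtain ⟨v, hv0, hv⟩ := exists_eigenvector_of_eigenform N f hf φ hφ
    (Hp := parTkHoms N p) mem_parTkHoms_iff AJ₁ hinj
  refine ⟨v, hv0, fun ℓ T hT a ha => hv ℓ T (fun χ => ?_) a ha⟩
  rw [hAJ₁, hAJ₁, hT]
  refine hdep _ _ ?_
  rw [hlift']
  show (Int.castAddHom (ZMod p)).comp (heckeHom N ℓ ℤ (lift χ : Additive (Gamma0 N) →+ ℤ)) =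
    heckeHom N ℓ (ZMod p) (χ : Additive (Gamma0 N) →+ ZMod p)
  rw [← Fermat.Agent.S16.H75.heckeHom_comp]
  exact congrArg _ (hlift' χ)

end Fermat.Agent.S29.H16
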